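import Fermat.Agent.DR.Hecke.Defs

set_option autoImplicit false
set_option linter.style.haveILetI false

/-!
# DR/Hecke : `q`-expansions of `Norm_α` and of `U_q` at level `M q`

`(Norm_α f)(t^q) = f(t^q) ∏_{i<q} (w f)(ζ^i t)` and `(U_q g)(t^q) = ∏_{i<q} g(ζ^i t)`.
-/

noncomputable section

namespace Fermat.Agent.DR.Hecke

open AlgebraicCurve ModularCurve Fermat.Agent.S24 Fermat.Agent.GAL Fermat.Agent.GAL.Hecke

variable {M q : ℕ} [NeZero M] [NeZero q] (hq : q.Prime) (hM : ¬ q ∣ M)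

/-- **The norm formula at level `M q`.** -/
theorem qExpand_normAlong {ζ : Kbar} (hζ : IsPrimitiveRoot ζ q) (f : FN (M * q)) :
    qExpand Kbar q ((normAlong (heckeAlphaBar Kbar M q) f : FN M) : LaurentSeries Kbar) =
      qExpand Kbar q (f : LaurentSeries Kbar) *
        ∏ i : Fin q, Fermat.Agent.S24.twist (ζ ^ (i : ℕ)) (pow_ne_zero _ (hζ.ne_zero hq.ne_zero))
          ((wHom M q hq hM f : FN (M * q)) : LaurentSeries Kbar) := by
  have hζ0 := hζ.ne_zero hq.ne_zero
  have key := @NormFormula.norm_eq_prod_of_embeddings (FN M) (FN (M * q)) (LaurentSeries Kbar)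
    (Option (Fin q)) _ _ _ _ _ (algebraAlong (heckeAlphaBar Kbar M q))
    (DegreeAlpha.finiteDimensional_alpha M q hq hM)
    ((qExpand Kbar q).comp (NormFormula.valN M)) (NormFormula.emb (M := M) (wHom M q hq hM) hζ0)
    (fun o x => NormFormula.emb_alpha hq (wHom M q hq hM) (wHom_comp_alpha M q hq hM) hζ o x)
    (NormFormula.emb_injective hq (wHom M q hq hM) (wHom_comp_beta M q hq hM) hζ)
    (by rw [Fintype.card_option, Fintype.card_fin, DegreeAlpha.finrank_alpha M q hq hM]) f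
  rw [Fintype.prod_option, NormFormula.emb_none] at key
  exact key

/-- **The `q`-expansion of `U_q`.** -/
theorem qExpand_UqF {ζ : Kbar} (hζ : IsPrimitiveRoot ζ q) (g : (FN (M * q))ˣ) :
    qExpand Kbar q (((UqF M q hq hM g : (FN (M * q))ˣ) : FN (M * q)) : LaurentSeries Kbar) =
      ∏ i : Fin q, Fermat.Agent.S24.twist (ζ ^ (i : ℕ)) (pow_ne_zero _ (hζ.ne_zero hq.ne_zero))
        (((g : (FN (M * q))ˣ) : FN (M * q)) : LaurentSeries Kbar) := by
  have key := qExpand_normAlong hq hM hζ (wHom M q hq hM (g : FN (M * q)))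
  simp only [wHom_wHom] at key
  have hw0 : ((wHom M q hq hM (g : FN (M * q)) : FN (M * q)) : LaurentSeries Kbar) ≠ 0 := by
    intro h
    exact (wUnits M q hq hM g).ne_zero (Subtype.ext h)
  have hw1 : qExpand Kbar q ((wHom M q hq hM (g : FN (M * q)) : FN (M * q)) : LaurentSeries Kbar)
      ≠ 0 := (map_ne_zero _).2 hw0
  rw [UqF_apply, Units.val_mul, Units.val_inv_eq_inv_val, IntermediateField.coe_mul,
    IntermediateField.coe_inv, coe_aUnits, coe_heckeAlphaBar, coe_nUnits, coe_wUnits, map_mul,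
    map_inv₀, key, mul_comm, ← mul_assoc, inv_mul_cancel₀ hw1, one_mul]

end Fermat.Agent.DR.Hecke
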