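import Fermat.Agent.DR.Hecke.LevelW

set_option autoImplicit false
set_option linter.style.haveILetI false
set_option linter.unusedSectionVars false

/-!
# DR/Hecke : `α_{q *}` commutes with `T_ℓ`
-/

noncomputable section

namespace Fermat.Agent.DR.Hecke

open AlgebraicCurve ModularCurve Fermat.Agent.S24 Fermat.Agent.GAL Fermat.Agent.GAL.Hecke

/-- `x(t^ℓ)` with `t ↦ c t` is `x(c^ℓ t^ℓ)`. -/
theorem twist_qExpand' {L : Type*} [Field L] (ℓ : ℕ) [NeZero ℓ] {c : L} (hc : c ≠ 0)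
    (x : LaurentSeries L) :
    Fermat.Agent.S24.twist c hc (qExpand L ℓ x) =
      qExpand L ℓ (Fermat.Agent.S24.twist (c ^ ℓ) (pow_ne_zero _ hc) x) := by
  ext n
  rw [Fermat.Agent.S24.twist_coeff]
  by_cases hn : (ℓ : ℤ) ∣ n
  · obtain ⟨m, rfl⟩ := hn
    rw [qExpand_coeff_mul, qExpand_coeff_mul, Fermat.Agent.S24.twist_coeff, zpow_mul,
      zpow_natCast]
  · rw [qExpand_coeff_of_not_dvd ℓ _ hn, qExpand_coeff_of_not_dvd ℓ _ hn, mul_zero]

theorem twist_congr {L : Type*} [Field L] {c c' : L} (h : c = c') (hc : c ≠ 0) (hc' : c' ≠ 0)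
    (x : LaurentSeries L) :
    Fermat.Agent.S24.twist c hc x = Fermat.Agent.S24.twist c' hc' x := by
  subst h
  rfl

theorem qExpand_comm {R : Type*} [CommRing R] (a b : ℕ) [NeZero a] [NeZero b]
    (x : LaurentSeries R) : qExpand R a (qExpand R b x) = qExpand R b (qExpand R a x) := by
  rw [qExpand_qExpand, qExpand_qExpand]
  exact qExpand_congr (mul_comm a b) x

variable (M q ℓ : ℕ) [NeZero M] [NeZero q] [NeZero ℓ]
variable (hq : q.Prime) (hM : ¬ q ∣ M) (hMℓ : ¬ q ∣ M * ℓ)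

/-- The two towers `FN M ⊆ FN (M q) ⊆ FN (M q ℓ)` and `FN M ⊆ FN (M ℓ) ⊆ FN (M ℓ q)`. -/
theorem alpha_comp_alpha :
    (heckeAlphaBar Kbar (M * q) ℓ).comp (heckeAlphaBar Kbar M q) =
      (((swapLevel M q ℓ : FN (M * ℓ * q) ≃ₐ[Kbar] FN (M * q * ℓ)) :
        FN (M * ℓ * q) →ₐ[Kbar] FN (M * q * ℓ)).comp (heckeAlphaBar Kbar (M * ℓ) q)).comp
        (heckeAlphaBar Kbar M ℓ) := by
  apply AlgHom.ext
  intro x
  apply Subtype.ext
  show ((heckeAlphaBar Kbar (M * q) ℓ (heckeAlphaBar Kbar M q x) : FN (M * q * ℓ)) :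
      LaurentSeries Kbar) =
    ((swapLevel M q ℓ (heckeAlphaBar Kbar (M * ℓ) q (heckeAlphaBar Kbar M ℓ x)) :
      FN (M * q * ℓ)) : LaurentSeries Kbar)
  rw [coe_swapLevel, coe_heckeAlphaBar, coe_heckeAlphaBar, coe_heckeAlphaBar, coe_heckeAlphaBar]

/-- norm along `swapLevel ∘ α`. -/
theorem normAlong_swapLevel_comp (y : FN (M * q * ℓ)) :
    normAlong (((swapLevel M q ℓ : FN (M * ℓ * q) ≃ₐ[Kbar] FN (M * q * ℓ)) :
        FN (M * ℓ * q) →ₐ[Kbar] FN (M * q * ℓ)).comp (heckeAlphaBar Kbar (M * ℓ) q)) y =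
      normAlong (heckeAlphaBar Kbar (M * ℓ) q) ((swapLevel M q ℓ).symm y) := by
  have key := normAlong_equiv_equiv (heckeAlphaBar Kbar (M * ℓ) q)
    (((swapLevel M q ℓ : FN (M * ℓ * q) ≃ₐ[Kbar] FN (M * q * ℓ)) :
        FN (M * ℓ * q) →ₐ[Kbar] FN (M * q * ℓ)).comp (heckeAlphaBar Kbar (M * ℓ) q))
    (RingEquiv.refl (FN (M * ℓ))) ((swapLevel M q ℓ).toRingEquiv) (fun x => rfl)
    ((swapLevel M q ℓ).symm y)
  have h1 : (swapLevel M q ℓ).toRingEquiv ((swapLevel M q ℓ).symm y) = y :=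
    (swapLevel M q ℓ).apply_symm_apply y
  rw [h1] at key
  exact key

include hq hM hMℓ in
/-- **Base change of the norm**: `Norm_{α_q}` at level `M ℓ` of `β_ℓ f` is `β_ℓ` of `Norm_{α_q} f`. -/
theorem normAlong_beta (hℓq : Nat.Coprime ℓ q) (f : FN (M * q)) :
    normAlong (heckeAlphaBar Kbar (M * ℓ) q)
        ((swapLevel M q ℓ).symm (heckeBetaBar Kbar (M * q) ℓ f)) =
      heckeBetaBar Kbar M ℓ (normAlong (heckeAlphaBar Kbar M q) f) := by
  obtain ⟨ζ, hζ⟩ := HasEnoughRootsOfUnity.exists_primitiveRoot Kbar q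
  have hζ0 : ζ ≠ 0 := hζ.ne_zero hq.ne_zero
  have hζ' : IsPrimitiveRoot (ζ ^ ℓ) q := hζ.pow_of_coprime ℓ hℓq
  apply Subtype.ext
  apply qExpand_injective (R := Kbar) (N := q)
  have hw : wHom (M * ℓ) q hq hMℓ ((swapLevel M q ℓ).symm (heckeBetaBar Kbar (M * q) ℓ f)) =
      (swapLevel M q ℓ).symm (heckeBetaBar Kbar (M * q) ℓ (wHom M q hq hM f)) := by
    rw [← wUp_beta M q ℓ hq hM hMℓ, wUp_apply, AlgEquiv.symm_apply_apply]
  rw [qExpand_normAlong hq hMℓ hζ, hw, coe_swapLevel_symm, coe_swapLevel_symm, coe_heckeBetaBar,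
    coe_heckeBetaBar, coe_heckeBetaBar, qExpand_comm q ℓ, qExpand_comm q ℓ,
    qExpand_normAlong hq hM hζ', map_mul, map_prod]
  congr 1
  refine Finset.prod_congr rfl fun i _ => ?_
  rw [twist_qExpand']
  congr 1
  exact twist_congr (by rw [← pow_mul, ← pow_mul, mul_comm]) _ _ _

include hq hM hMℓ in
/-- **`α_{q *}` commutes with `T_ℓ`** (on functions). -/
theorem normAlong_heckeNorm (hℓq : Nat.Coprime ℓ q) (f : FN (M * q)) :
    normAlong (heckeAlphaBar Kbar M q) (heckeNorm Kbar (M * q) ℓ f) =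
      heckeNorm Kbar M ℓ (normAlong (heckeAlphaBar Kbar M q) f) := by
  have h1 : heckeNorm Kbar (M * q) ℓ f =
      normAlong (heckeAlphaBar Kbar (M * q) ℓ) (heckeBetaBar Kbar (M * q) ℓ f) := rfl
  have h2 : heckeNorm Kbar M ℓ (normAlong (heckeAlphaBar Kbar M q) f) =
      normAlong (heckeAlphaBar Kbar M ℓ)
        (heckeBetaBar Kbar M ℓ (normAlong (heckeAlphaBar Kbar M q) f)) := rfl
  rw [h1, h2, ← normAlong_comp, alpha_comp_alpha, normAlong_comp, normAlong_swapLevel_comp,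
    normAlong_beta M q ℓ hq hM hMℓ hℓq]

end Fermat.Agent.DR.Hecke
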