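import Fermat.Agent.DR.Interface
import Fermat.Agent.DR.Hecke.AHecke

set_option autoImplicit false
set_option linter.style.haveILetI false
set_option linter.unusedSectionVars false

/-!
# DR/Hecke : the structure `KVDegen M q` of `DR/Interface.lean`
-/

noncomputable section

namespace Fermat.Agent.DR.Hecke

open AlgebraicCurve ModularCurve Fermat.Agent.S24 Fermat.Agent.GAL Fermat.Agent.GAL.Hecke

variable {M q : ℕ} [NeZero M] [NeZero q] (hq : q.Prime) (hM : ¬ q ∣ M)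

theorem wq_eq : Fermat.Agent.DR.wq M q = wHom M q hq hM := by
  rw [Fermat.Agent.DR.wq, dif_pos ⟨hq, hM⟩]
  rfl

theorem interface_wKV_eq (m : ℕ) : Fermat.Agent.DR.wKV M q m = wKV M q hq hM m := by
  ext x
  obtain ⟨u, rfl⟩ := KV.mk_surjective x
  rw [wKV_mk, Fermat.Agent.DR.wKV, KV.map_mk]
  refine congrArg KV.mk (Subtype.ext (Units.ext ?_))
  show Fermat.Agent.DR.wq M q _ = wHom M q hq hM _
  rw [wq_eq hq hM]

theorem interface_alphaKV_eq (m : ℕ) : Fermat.Agent.DR.alphaKV M q m = aPush M q m := rfl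

include hq in
theorem not_dvd_mul_of {ℓ : ℕ} (hM : ¬ q ∣ M) (hℓ : ℓ.Prime) (hℓN : ¬ ℓ ∣ M * q) : ¬ q ∣ M * ℓ := by
  intro h
  rcases (Nat.Prime.dvd_mul hq).1 h with h | h
  · exact hM h
  · rw [(Nat.prime_dvd_prime_iff_eq hq hℓ).1 h] at hℓN
    exact hℓN (dvd_mul_left _ _)

include hq in
theorem coprime_of {ℓ : ℕ} (hℓ : ℓ.Prime) (hℓN : ¬ ℓ ∣ M * q) : Nat.Coprime ℓ q := by
  rw [Nat.coprime_primes hℓ hq]
  rintro rfl
  exact hℓN (dvd_mul_left _ _)

/-- `w_q` commutes with `T_ℓ`. -/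
theorem wKV_heckeT (m ℓ : ℕ) [NeZero ℓ] (hℓ : ℓ.Prime) (hℓN : ¬ ℓ ∣ M * q)
    (x : KV Kbar (FN (M * q)) m) :
    wKV M q hq hM m (heckeT Kbar (M * q) ℓ m x) = heckeT Kbar (M * q) ℓ m (wKV M q hq hM m x) := by
  obtain ⟨u, rfl⟩ := KV.mk_surjective x
  rw [heckeT_mk (heckeNormPreserves (M * q) ℓ m), wKV_mk, wKV_mk,
    heckeT_mk (heckeNormPreserves (M * q) ℓ m)]
  exact congrArg KV.mk (Subtype.ext (Units.ext
    (heckeNorm_wHom M q ℓ hq hM (not_dvd_mul_of hq hM hℓ hℓN) _).symm))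

include hq hM in
/-- `α_{q *}` commutes with `T_ℓ`. -/
theorem aPush_heckeT (m ℓ : ℕ) [NeZero ℓ] (hℓ : ℓ.Prime) (hℓN : ¬ ℓ ∣ M * q)
    (x : KV Kbar (FN (M * q)) m) :
    aPush M q m (heckeT Kbar (M * q) ℓ m x) = heckeT Kbar M ℓ m (aPush M q m x) := by
  obtain ⟨u, rfl⟩ := KV.mk_surjective x
  rw [heckeT_mk (heckeNormPreserves (M * q) ℓ m), aPush_mk, aPush_mk,
    heckeT_mk (heckeNormPreserves M ℓ m)]
  exact congrArg KV.mk (Subtype.ext (Units.ext
    (normAlong_heckeNorm M q ℓ hq hM (not_dvd_mul_of hq hM hℓ hℓN) (coprime_of hq hℓ hℓN) _)))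

include hq hM in
/-- **The formal compatibilities of the degeneracy operators.** -/
theorem kvDegen : Fermat.Agent.DR.KVDegen M q where
  w_galois m σ x := by
    rw [interface_wKV_eq hq hM]
    exact wKV_smul hq hM σ x
  w_red m m' h x := by
    rw [interface_wKV_eq hq hM, interface_wKV_eq hq hM]
    exact (wKV_red hq hM h x).symm
  w_hecke m ℓ _ hℓ hℓN x := by
    rw [interface_wKV_eq hq hM]
    exact wKV_heckeT hq hM m ℓ hℓ hℓN x
  alpha_galois m σ x := aPush_smul σ x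
  alpha_red m m' h x := (aPush_red h x).symm
  alpha_hecke m ℓ _ hℓ hℓN x := aPush_heckeT hq hM m ℓ hℓ hℓN x

end Fermat.Agent.DR.Hecke
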