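import Fermat.Agent.DR.Hecke.RedUq
import Fermat.Agent.DR.Hecke.Degen
import Fermat.Agent.DR.Gal.Main

set_option autoImplicit false
set_option linter.style.haveILetI false
set_option linter.unusedSectionVars false

/-!
# DR/Hecke : DR3

`(φ + q w)(φ + w) = 0` on the `q`-new part of `V_m(F(M q))`, from DR2 (`φ = - q w` on `K_tor`).

* `frob_sub_UqKV_mem_Kone` : `φ x - U_q x ∈ ker red_∞` for all `x`;
* `frob_add_wKV_mem_KtorC` : `α_* x = α_* w x = 0 ⇒ φ x + w x ∈ K_tor`;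
* `kvNewFrob_of_DR2` : `Gal.DR2 M q hq hqM p → KVNewFrob M q p`.
-/

noncomputable section

namespace Fermat.Agent.DR.Hecke

open AlgebraicCurve ModularCurve Fermat.Agent.S24 Fermat.Agent.GAL Fermat.Agent.GAL.Hecke
  Fermat.Agent.GAL.Gauss Fermat.Agent.DR.Gal

variable (A : ValuationSubring Kbar) (M q : ℕ) [NeZero M] [NeZero q] (hq : q.Prime)
  (hqM : ¬ q ∣ M) (hA : A.LiesOverPrime q)

/-- Every class has a representative which is a unit for the Gauss valuation at `∞`. -/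
theorem exists_rep_unit {m : ℕ} (hm : 0 < m) (x : KV Kbar (FN (M * q)) m) :
    ∃ g : kummerUnits Kbar (FN (M * q)) m, KV.mk g = x ∧
      (Conc.R1 A M q hq hqM hA).red (((g : (FN (M * q))ˣ)) : FN (M * q)) ≠ 0 := by
  obtain ⟨f, rfl⟩ := KV.mk_surjective x
  obtain ⟨a, ha, haf⟩ := Conc.R1_scale A M q hq hqM hA ((f : (FN (M * q))ˣ) : FN (M * q))
    (f : (FN (M * q))ˣ).ne_zero
  have hane : algebraMap Kbar (FN (M * q)) a ≠ 0 := (map_ne_zero _).2 ha
  let a' : (FN (M * q))ˣ := Units.mk0 _ hane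
  have ha'mem : a' ∈ kummerUnits Kbar (FN (M * q)) m := by
    intro v
    show (m : ℤ) ∣ v.ord (algebraMap Kbar (FN (M * q)) a)
    rw [Fermat.Agent.S24.ord_algebraMap]
    exact dvd_zero _
  let A' : kummerUnits Kbar (FN (M * q)) m := ⟨a', ha'mem⟩
  have hA' : KV.mk A' = 0 :=
    mk_eq_zero_of_const (fun a => IsAlgClosed.exists_pow_nat_eq a hm) A' a rfl
  exact ⟨A' * f, by rw [KV.mk_mul, hA', zero_add], haf⟩

/-- `y ∈ ker red_0` as soon as `w y ∈ ker red_∞`. -/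
theorem mem_Kone_R2_of_wKV {m : ℕ} {y : KV Kbar (FN (M * q)) m}
    (h : wKV M q hq hqM m y ∈ Kone (Conc.R1 A M q hq hqM hA) m) :
    y ∈ Kone (Conc.R2 A M q hq hqM hA) m := by
  obtain ⟨f, hf, hr⟩ := h
  refine ⟨⟨wUnits M q hq hqM f, wUnits_mem hq hqM m f.2⟩, ?_, ?_⟩
  · rw [← wKV_mk, hf, wKV_wKV]
  · rw [Conc.R2_red]
    have e : Conc.W M q hq hqM (((⟨wUnits M q hq hqM f, wUnits_mem hq hqM m f.2⟩ :
        kummerUnits Kbar (FN (M * q)) m) : (FN (M * q))ˣ) : FN (M * q)) =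
        ((f : (FN (M * q))ˣ) : FN (M * q)) := wHom_wHom M q hq hqM _
    rw [e, hr]

section Frob

variable [Fact q.Prime] [CharP (IsLocalRing.ResidueField ↥A) q]
  [PerfectRing (IsLocalRing.ResidueField ↥A) q]

/-- **`φ - U_q` maps `V_m` into `ker red_∞`.** -/
theorem frob_sub_UqKV_mem_Kone {m : ℕ} (hm : 0 < m) (σ : GQ) (hσ : A.IsFrobeniusAt σ q)
    (x : KV Kbar (FN (M * q)) m) :
    σ • x - UqKV M q hq hqM m x ∈ Kone (Conc.R1 A M q hq hqM hA) m := by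
  obtain ⟨g, rfl, hg⟩ := exists_rep_unit A M q hq hqM hA hm x
  set R := Conc.R1 A M q hq hqM hA with hR
  have hgO := R.mem_of_red_ne_zero hg
  obtain ⟨hUO, hUred⟩ := R1_red_UqF A hq hA M hqM (g : (FN (M * q))ˣ) hgO
  have hc := compat_R1_of_frobenius A M q hq hqM hA σ hσ
  have hFr0 : Conc.FrE (IsLocalRing.ResidueField ↥A) M q
      (R.red ((g : (FN (M * q))ˣ) : FN (M * q))) ≠ 0 := (map_ne_zero _).2 hg
  refine ⟨⟨semilinearUnits (gal (M * q) σ) g, semilinearUnits_mem _ _ g.2⟩ *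
    (⟨UqF M q hq hqM g, UqF_mem hq hqM m g.2⟩ : kummerUnits Kbar (FN (M * q)) m)⁻¹, ?_, ?_⟩
  · rw [KV.mk_mul, KV.mk_inv, ← UqKV_mk, sub_eq_add_neg]
    rfl
  · have e : (((⟨semilinearUnits (gal (M * q) σ) g, semilinearUnits_mem _ _ g.2⟩ *
        (⟨UqF M q hq hqM g, UqF_mem hq hqM m g.2⟩ : kummerUnits Kbar (FN (M * q)) m)⁻¹ :
          kummerUnits Kbar (FN (M * q)) m) : (FN (M * q))ˣ) : FN (M * q)) =
        gal (M * q) σ • ((g : (FN (M * q))ˣ) : FN (M * q)) *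
          (((UqF M q hq hqM g : (FN (M * q))ˣ)) : FN (M * q))⁻¹ := by
      rw [Subgroup.coe_mul, Units.val_mul, Subgroup.coe_inv, Units.val_inv_eq_inv_val]
      rfl
    have hU0 : R.red (((UqF M q hq hqM g : (FN (M * q))ˣ)) : FN (M * q)) ≠ 0 := by
      rw [hUred]; exact hFr0
    rw [e, R.red_mul (hc.mem _ hgO) (R.inv_mem_of_red_ne_zero hU0), hc.red _ hgO, R.red_inv, hUred]
    exact mul_inv_cancel₀ hFr0

/-- On the `q`-new part, `φ + w` has values in `K_tor`. -/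
theorem frob_add_wKV_mem_KtorC {m : ℕ} (hm : 0 < m) (σ : GQ) (hσ : A.IsFrobeniusAt σ q)
    (x : KV Kbar (FN (M * q)) m) (h1 : aPush M q m x = 0)
    (h2 : aPush M q m (wKV M q hq hqM m x) = 0) :
    σ • x + wKV M q hq hqM m x ∈ KtorC A M q hq hqM hA m := by
  have hU1 : UqKV M q hq hqM m x = - wKV M q hq hqM m x := UqKV_eq_neg_wKV hq hqM h2
  have hU2 : UqKV M q hq hqM m (wKV M q hq hqM m x) = - x := by
    have := UqKV_eq_neg_wKV hq hqM (x := wKV M q hq hqM m x) (by rw [wKV_wKV]; exact h1)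
    rwa [wKV_wKV] at this
  refine ⟨?_, mem_Kone_R2_of_wKV A M q hq hqM hA ?_⟩
  · have := frob_sub_UqKV_mem_Kone A M q hq hqM hA hm σ hσ x
    rwa [hU1, sub_neg_eq_add] at this
  · rw [map_add, wKV_smul, wKV_wKV]
    have := frob_sub_UqKV_mem_Kone A M q hq hqM hA hm σ hσ (wKV M q hq hqM m x)
    rwa [hU2, sub_neg_eq_add] at this

end Frob

/-- **DR3**, in the form consumed by S35. -/
theorem kvNewFrob_of_DR2 {p : ℕ} (hp : 0 < p) (h : DR2 M q hq hqM p) :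
    Fermat.Agent.DR.KVNewFrob M q p := by
  refine ⟨1, one_ne_zero, fun k A hA σ hσ x h1 h2 => ?_⟩
  haveI : Fact q.Prime := ⟨hq⟩
  haveI := charP_residueField A hq hA
  haveI := perfectRing_residueField q A
  rw [one_smul]
  rw [interface_wKV_eq hq hqM] at h2 ⊢
  have hy := frob_add_wKV_mem_KtorC A M q hq hqM hA (pow_pos hp k) σ hσ x h1 h2
  have key := h k A hA σ hσ _ hy
  rw [interface_wKV_eq hq hqM, map_add, wKV_smul, wKV_wKV, smul_add, smul_add] at key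
  rw [← key, add_smul, one_smul]
  abel

end Fermat.Agent.DR.Hecke
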