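import Fermat.Agent.GAL.Hecke.ES
import Fermat.Agent.GAL.KVGalois

set_option autoImplicit false
set_option linter.style.haveILetI false

/-!
# DR/Hecke : the operators `w_q`, `α^*`, `β^*`, `α_*`, `U_q` at level `M q` (`q ∤ M`)

Level `M * q` exactly as in `GAL/Hecke`: `α = heckeAlphaBar Kbar M q`, `β = heckeBetaBar Kbar M q`
are the two degeneracy maps `FN M → FN (M * q)`.

* `wHom M q hq hM` : the Atkin-Lehner involution of `FN (M * q)`;
* `UqF` : `g ↦ α (Norm_α (w g)) / (w g)`, the multiplicative `U_q` operator;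
* `wKV`, `aPull`, `bPull`, `aPush`, `UqKV` : the induced maps on the Kummer models.
-/

noncomputable section

namespace Fermat.Agent.DR.Hecke

open AlgebraicCurve ModularCurve Fermat.Agent.S24 Fermat.Agent.GAL Fermat.Agent.GAL.Hecke

variable (M q : ℕ) [NeZero M] [NeZero q] (hq : q.Prime) (hM : ¬ q ∣ M)

/-- The Atkin-Lehner involution `w_q` of the function field of level `M q`. -/
def wHom : FN (M * q) →ₐ[Kbar] FN (M * q) :=
  (AtkinLehner.exists_atkinLehner M q hq hM).choose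

theorem wHom_comp_alpha :
    (wHom M q hq hM).comp (heckeAlphaBar Kbar M q) = heckeBetaBar Kbar M q :=
  (AtkinLehner.exists_atkinLehner M q hq hM).choose_spec.1

theorem wHom_comp_beta :
    (wHom M q hq hM).comp (heckeBetaBar Kbar M q) = heckeAlphaBar Kbar M q :=
  (AtkinLehner.exists_atkinLehner M q hq hM).choose_spec.2.1

theorem wHom_comp_wHom : (wHom M q hq hM).comp (wHom M q hq hM) = AlgHom.id Kbar _ :=
  (AtkinLehner.exists_atkinLehner M q hq hM).choose_spec.2.2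

theorem wHom_alpha (x : FN M) :
    wHom M q hq hM (heckeAlphaBar Kbar M q x) = heckeBetaBar Kbar M q x :=
  congrArg (fun g : FN M →ₐ[Kbar] FN (M * q) => g x) (wHom_comp_alpha M q hq hM)

theorem wHom_beta (x : FN M) :
    wHom M q hq hM (heckeBetaBar Kbar M q x) = heckeAlphaBar Kbar M q x :=
  congrArg (fun g : FN M →ₐ[Kbar] FN (M * q) => g x) (wHom_comp_beta M q hq hM)

theorem wHom_wHom (x : FN (M * q)) : wHom M q hq hM (wHom M q hq hM x) = x :=
  congrArg (fun g : FN (M * q) →ₐ[Kbar] FN (M * q) => g x) (wHom_comp_wHom M q hq hM)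

theorem wHom_surjective : Function.Surjective (wHom M q hq hM) :=
  fun x => ⟨wHom M q hq hM x, wHom_wHom M q hq hM x⟩

theorem wHom_isIntegral : (wHom M q hq hM).toRingHom.IsIntegral :=
  RingHom.isIntegral_of_surjective _ (wHom_surjective M q hq hM)

/-- `w_q` is determined by `w ∘ α = β`, `w ∘ β = α`. -/
theorem wHom_unique (w' : FN (M * q) →ₐ[Kbar] FN (M * q))
    (h1 : w'.comp (heckeAlphaBar Kbar M q) = heckeBetaBar Kbar M q)
    (h2 : w'.comp (heckeBetaBar Kbar M q) = heckeAlphaBar Kbar M q) : w' = wHom M q hq hM := by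
  apply AlgHom.coe_ringHom_injective
  refine FNAdjoin.ringHom_ext (fun c => ?_) (fun d _ hd => ?_)
  · simp
  · show w' _ = wHom M q hq hM _
    rcases AtkinLehner.dvd_cases hq hd with h | ⟨d', h, rfl⟩
    · rw [← AtkinLehner.alpha_jd d h, wHom_alpha]
      exact congrArg (fun g : FN M →ₐ[Kbar] FN (M * q) => g _) h1
    · have : NeZero d' := ⟨fun h0 => by
        subst h0
        exact NeZero.ne (0 * q) (zero_mul q)⟩
      rw [← AtkinLehner.beta_jd d' h, wHom_beta]
      exact congrArg (fun g : FN M →ₐ[Kbar] FN (M * q) => g _) h2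

/-- `w_q` on units. -/
def wUnits : (FN (M * q))ˣ →* (FN (M * q))ˣ :=
  Units.map ((wHom M q hq hM : FN (M * q) →+* FN (M * q)) : FN (M * q) →* FN (M * q))

theorem coe_wUnits (u : (FN (M * q))ˣ) :
    ((wUnits M q hq hM u : (FN (M * q))ˣ) : FN (M * q)) = wHom M q hq hM (u : FN (M * q)) := rfl

theorem wUnits_wUnits (u : (FN (M * q))ˣ) : wUnits M q hq hM (wUnits M q hq hM u) = u :=
  Units.ext (wHom_wHom M q hq hM _)

/-- `α` on units. -/
def aUnits : (FN M)ˣ →* (FN (M * q))ˣ :=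
  Units.map ((heckeAlphaBar Kbar M q : FN M →+* FN (M * q)) : FN M →* FN (M * q))

/-- `β` on units. -/
def bUnits : (FN M)ˣ →* (FN (M * q))ˣ :=
  Units.map ((heckeBetaBar Kbar M q : FN M →+* FN (M * q)) : FN M →* FN (M * q))

/-- `Norm_α` on units. -/
def nUnits : (FN (M * q))ˣ →* (FN M)ˣ := Units.map (normAlong (heckeAlphaBar Kbar M q))

theorem coe_aUnits (u : (FN M)ˣ) :
    ((aUnits M q u : (FN (M * q))ˣ) : FN (M * q)) = heckeAlphaBar Kbar M q (u : FN M) := rfl

theorem coe_bUnits (u : (FN M)ˣ) :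
    ((bUnits M q u : (FN (M * q))ˣ) : FN (M * q)) = heckeBetaBar Kbar M q (u : FN M) := rfl

theorem coe_nUnits (u : (FN (M * q))ˣ) :
    ((nUnits M q u : (FN M)ˣ) : FN M) = normAlong (heckeAlphaBar Kbar M q) (u : FN (M * q)) := rfl

/-- The multiplicative operator `U_q` : `g ↦ α (Norm_α (w g)) / (w g)`. -/
def UqF : (FN (M * q))ˣ →* (FN (M * q))ˣ :=
  ((aUnits M q).comp ((nUnits M q).comp (wUnits M q hq hM))) * (wUnits M q hq hM)⁻¹

theorem UqF_apply (g : (FN (M * q))ˣ) :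
    UqF M q hq hM g = aUnits M q (nUnits M q (wUnits M q hq hM g)) * (wUnits M q hq hM g)⁻¹ := rfl

variable {M q} (m : ℕ)

theorem wUnits_mem {u : (FN (M * q))ˣ} (hu : u ∈ kummerUnits Kbar (FN (M * q)) m) :
    wUnits M q hq hM u ∈ kummerUnits Kbar (FN (M * q)) m :=
  map_mem_kummerUnits (wHom M q hq hM) (wHom_isIntegral M q hq hM) hu

theorem aUnits_mem {u : (FN M)ˣ} (hu : u ∈ kummerUnits Kbar (FN M) m) :
    aUnits M q u ∈ kummerUnits Kbar (FN (M * q)) m :=
  map_mem_kummerUnits (heckeAlphaBar Kbar M q) (integral_alpha M q) hu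

theorem bUnits_mem {u : (FN M)ˣ} (hu : u ∈ kummerUnits Kbar (FN M) m) :
    bUnits M q u ∈ kummerUnits Kbar (FN (M * q)) m :=
  map_mem_kummerUnits (heckeBetaBar Kbar M q) (integral_beta M q) hu

theorem nUnits_mem {u : (FN (M * q))ˣ} (hu : u ∈ kummerUnits Kbar (FN (M * q)) m) :
    nUnits M q u ∈ kummerUnits Kbar (FN M) m :=
  normAlong_mem_kummerUnits (heckeAlphaBar Kbar M q) (finiteAlong_alpha M q) hu

theorem UqF_mem {u : (FN (M * q))ˣ} (hu : u ∈ kummerUnits Kbar (FN (M * q)) m) :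
    UqF M q hq hM u ∈ kummerUnits Kbar (FN (M * q)) m :=
  mul_mem (aUnits_mem m (nUnits_mem m (wUnits_mem hq hM m hu))) (inv_mem (wUnits_mem hq hM m hu))

variable (M q)

/-- `w_q` on the Kummer model. -/
def wKV : KV Kbar (FN (M * q)) m →+ KV Kbar (FN (M * q)) m :=
  KV.map (wUnits M q hq hM) (fun _ hu => wUnits_mem hq hM m hu)

/-- `α^*`. -/
def aPull : KV Kbar (FN M) m →+ KV Kbar (FN (M * q)) m :=
  KV.map (aUnits M q) (fun _ hu => aUnits_mem m hu)

/-- `β^*`. -/
def bPull : KV Kbar (FN M) m →+ KV Kbar (FN (M * q)) m :=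
  KV.map (bUnits M q) (fun _ hu => bUnits_mem m hu)

/-- `α_*` (the norm). -/
def aPush : KV Kbar (FN (M * q)) m →+ KV Kbar (FN M) m :=
  KV.map (nUnits M q) (fun _ hu => nUnits_mem m hu)

/-- `U_q` on the Kummer model. -/
def UqKV : KV Kbar (FN (M * q)) m →+ KV Kbar (FN (M * q)) m :=
  KV.map (UqF M q hq hM) (fun _ hu => UqF_mem hq hM m hu)

variable {M q m}

theorem wKV_mk (u : kummerUnits Kbar (FN (M * q)) m) :
    wKV M q hq hM m (KV.mk u) = KV.mk ⟨wUnits M q hq hM u, wUnits_mem hq hM m u.2⟩ := rfl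

theorem aPull_mk (u : kummerUnits Kbar (FN M) m) :
    aPull M q m (KV.mk u) = KV.mk ⟨aUnits M q u, aUnits_mem m u.2⟩ := rfl

theorem bPull_mk (u : kummerUnits Kbar (FN M) m) :
    bPull M q m (KV.mk u) = KV.mk ⟨bUnits M q u, bUnits_mem m u.2⟩ := rfl

theorem aPush_mk (u : kummerUnits Kbar (FN (M * q)) m) :
    aPush M q m (KV.mk u) = KV.mk ⟨nUnits M q u, nUnits_mem m u.2⟩ := rfl

theorem UqKV_mk (u : kummerUnits Kbar (FN (M * q)) m) :
    UqKV M q hq hM m (KV.mk u) = KV.mk ⟨UqF M q hq hM u, UqF_mem hq hM m u.2⟩ := rfl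

theorem wKV_wKV (x : KV Kbar (FN (M * q)) m) : wKV M q hq hM m (wKV M q hq hM m x) = x := by
  obtain ⟨u, rfl⟩ := KV.mk_surjective x
  rw [wKV_mk, wKV_mk]
  congr 1
  exact Subtype.ext (wUnits_wUnits M q hq hM _)

theorem wKV_aPull (y : KV Kbar (FN M) m) : wKV M q hq hM m (aPull M q m y) = bPull M q m y := by
  obtain ⟨u, rfl⟩ := KV.mk_surjective y
  rw [aPull_mk, wKV_mk, bPull_mk]
  congr 1
  exact Subtype.ext (Units.ext (wHom_alpha M q hq hM _))

theorem wKV_bPull (y : KV Kbar (FN M) m) : wKV M q hq hM m (bPull M q m y) = aPull M q m y := by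
  obtain ⟨u, rfl⟩ := KV.mk_surjective y
  rw [aPull_mk, bPull_mk, wKV_mk]
  congr 1
  exact Subtype.ext (Units.ext (wHom_beta M q hq hM _))

/-- `U_q x = α^* α_* (w x) - w x`. -/
theorem UqKV_eq (x : KV Kbar (FN (M * q)) m) :
    UqKV M q hq hM m x = aPull M q m (aPush M q m (wKV M q hq hM m x)) - wKV M q hq hM m x := by
  obtain ⟨u, rfl⟩ := KV.mk_surjective x
  rfl

/-- **The trace relation** `α^* α_* x = x + U_q (w x)`. -/
theorem aPull_aPush (x : KV Kbar (FN (M * q)) m) :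
    aPull M q m (aPush M q m x) = x + UqKV M q hq hM m (wKV M q hq hM m x) := by
  rw [UqKV_eq, wKV_wKV]
  abel

include hq hM in
/-- `α_* α^* = q + 1`. -/
theorem aPush_aPull (y : KV Kbar (FN M) m) : aPush M q m (aPull M q m y) = (q + 1) • y := by
  obtain ⟨u, rfl⟩ := KV.mk_surjective y
  rw [aPull_mk, aPush_mk, ← KV.mk_pow]
  congr 1
  apply Subtype.ext
  apply Units.ext
  letI := algebraAlong (heckeAlphaBar Kbar M q)
  show Algebra.norm (FN M) (algebraMap (FN M) (FN (M * q)) ((u : (FN M)ˣ) : FN M)) = _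
  rw [Algebra.norm_algebraMap]
  have h : Module.finrank (FN M) (FN (M * q)) = q + 1 := finrankAlong_alpha M q hq hM
  rw [h]
  rfl

/-- On the `q`-new part `U_q = - w_q`. -/
theorem UqKV_eq_neg_wKV {x : KV Kbar (FN (M * q)) m}
    (h : aPush M q m (wKV M q hq hM m x) = 0) : UqKV M q hq hM m x = - wKV M q hq hM m x := by
  rw [UqKV_eq, h, map_zero, zero_sub]

end Fermat.Agent.DR.Hecke
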