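import Fermat.Agent.DR.Hecke.Defs

set_option autoImplicit false
set_option linter.style.haveILetI false
set_option linter.unusedSectionVars false

/-!
# DR/Hecke (G) : `w_q`, `α^*`, `β^*`, `α_*`, `U_q` commute with the Galois action and with the
transition maps `KV.red`
-/

noncomputable section

namespace Fermat.Agent.DR.Hecke

open AlgebraicCurve ModularCurve Fermat.Agent.S24 Fermat.Agent.GAL Fermat.Agent.GAL.Hecke

variable {M q : ℕ} [NeZero M] [NeZero q] (hq : q.Prime) (hM : ¬ q ∣ M)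

/-- `w_q (j_d) = j_{dq}` for `d ∣ M`. -/
theorem wHom_jd (d : ℕ) [NeZero d] (hd : d ∣ M) :
    wHom M q hq hM (FNAdjoin.jd (M * q) d (hd.trans (dvd_mul_right M q))) =
      FNAdjoin.jd (M * q) (d * q) (Nat.mul_dvd_mul_right hd q) := by
  rw [← AtkinLehner.alpha_jd d hd, wHom_alpha, AtkinLehner.beta_jd]

/-- `w_q (j_{dq}) = j_d` for `d ∣ M`. -/
theorem wHom_jd_mul (d : ℕ) [NeZero d] (hd : d ∣ M) :
    wHom M q hq hM (FNAdjoin.jd (M * q) (d * q) (Nat.mul_dvd_mul_right hd q)) =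
      FNAdjoin.jd (M * q) d (hd.trans (dvd_mul_right M q)) := by
  rw [← AtkinLehner.beta_jd d hd, wHom_beta, AtkinLehner.alpha_jd]

/-- the `j_d` are Galois invariant. -/
theorem arithmeticRingAut_jd (N d : ℕ) [NeZero d] (hd : d ∣ N) (σ : Kbar ≃ₐ[ℚ] Kbar) :
    arithmeticRingAut (modularFunctionFieldFull N) σ (FNAdjoin.jd N d hd) = FNAdjoin.jd N d hd :=
  Subtype.ext (by
    rw [coe_arithmeticRingAut_apply, FNAdjoin.coe_jd, coeffMap_coeffEmb])

/-- **`w_q` commutes with the Galois action.** -/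
theorem wHom_arithmeticRingAut (σ : Kbar ≃ₐ[ℚ] Kbar) (f : FN (M * q)) :
    wHom M q hq hM (arithmeticRingAut (modularFunctionFieldFull (M * q)) σ f) =
      arithmeticRingAut (modularFunctionFieldFull (M * q)) σ (wHom M q hq hM f) := by
  have key : ((wHom M q hq hM : FN (M * q) →+* FN (M * q))).comp
      ((arithmeticRingAut (modularFunctionFieldFull (M * q)) σ : FN (M * q) ≃+* FN (M * q)) :
        FN (M * q) →+* FN (M * q)) =
      ((arithmeticRingAut (modularFunctionFieldFull (M * q)) σ : FN (M * q) ≃+* FN (M * q)) :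
        FN (M * q) →+* FN (M * q)).comp (wHom M q hq hM : FN (M * q) →+* FN (M * q)) := by
    refine FNAdjoin.ringHom_ext (fun c => ?_) (fun d _ hd => ?_)
    · show wHom M q hq hM (arithmeticRingAut _ σ (algebraMap Kbar (FN (M * q)) c)) =
        arithmeticRingAut _ σ (wHom M q hq hM (algebraMap Kbar (FN (M * q)) c))
      rw [arithmeticRingAut_algebraMap, AlgHom.commutes, AlgHom.commutes,
        arithmeticRingAut_algebraMap]
    · show wHom M q hq hM (arithmeticRingAut _ σ (FNAdjoin.jd (M * q) d hd)) =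
        arithmeticRingAut _ σ (wHom M q hq hM (FNAdjoin.jd (M * q) d hd))
      rw [arithmeticRingAut_jd]
      rcases AtkinLehner.dvd_cases hq hd with h | ⟨d', h, rfl⟩
      · rw [wHom_jd hq hM d h, arithmeticRingAut_jd]
      · have : NeZero d' := ⟨fun h0 => by
          subst h0
          exact NeZero.ne (0 * q) (zero_mul q)⟩
        rw [wHom_jd_mul hq hM d' h, arithmeticRingAut_jd]
  exact congrArg (fun g : FN (M * q) →+* FN (M * q) => g f) key

/-- `Norm_α` commutes with the Galois action. -/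
theorem normAlong_alpha_arithmeticRingAut (M ℓ : ℕ) [NeZero M] [NeZero ℓ] (σ : Kbar ≃ₐ[ℚ] Kbar)
    (f : FN (M * ℓ)) :
    normAlong (heckeAlphaBar Kbar M ℓ) (arithmeticRingAut (modularFunctionFieldFull (M * ℓ)) σ f) =
      arithmeticRingAut (modularFunctionFieldFull M) σ (normAlong (heckeAlphaBar Kbar M ℓ) f) := by
  let _ := algebraAlong (heckeAlphaBar Kbar M ℓ)
  have key := Algebra.norm_eq_of_equiv_equiv (A₁ := FN M) (B₁ := FN (M * ℓ))
    (A₂ := FN M) (B₂ := FN (M * ℓ))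
    (arithmeticRingAut (modularFunctionFieldFull M) σ)
    (arithmeticRingAut (modularFunctionFieldFull (M * ℓ)) σ)
    (RingHom.ext fun x => heckeAlphaBar_arithmeticRingAut M ℓ σ x) f
  have h1 : normAlong (heckeAlphaBar Kbar M ℓ) f = Algebra.norm (FN M) f := rfl
  have h2 : normAlong (heckeAlphaBar Kbar M ℓ)
      (arithmeticRingAut (modularFunctionFieldFull (M * ℓ)) σ f) =
      Algebra.norm (FN M) (arithmeticRingAut (modularFunctionFieldFull (M * ℓ)) σ f) := rfl
  rw [h1, h2, key, RingEquiv.apply_symm_apply]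

variable {m : ℕ}

theorem wKV_smul (σ : Kbar ≃ₐ[ℚ] Kbar) (x : KV Kbar (FN (M * q)) m) :
    wKV M q hq hM m (σ • x) = σ • wKV M q hq hM m x := by
  obtain ⟨u, rfl⟩ := KV.mk_surjective x
  rw [wKV_mk, KV.galois_smul_mk, KV.galois_smul_mk, wKV_mk]
  exact congrArg KV.mk (Subtype.ext (Units.ext (wHom_arithmeticRingAut hq hM σ _)))

theorem aPull_smul (σ : Kbar ≃ₐ[ℚ] Kbar) (y : KV Kbar (FN M) m) :
    aPull M q m (σ • y) = σ • aPull M q m y := by
  obtain ⟨u, rfl⟩ := KV.mk_surjective y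
  rw [aPull_mk, KV.galois_smul_mk, KV.galois_smul_mk, aPull_mk]
  exact congrArg KV.mk (Subtype.ext (Units.ext (heckeAlphaBar_arithmeticRingAut M q σ _)))

theorem bPull_smul (σ : Kbar ≃ₐ[ℚ] Kbar) (y : KV Kbar (FN M) m) :
    bPull M q m (σ • y) = σ • bPull M q m y := by
  obtain ⟨u, rfl⟩ := KV.mk_surjective y
  rw [bPull_mk, KV.galois_smul_mk, KV.galois_smul_mk, bPull_mk]
  exact congrArg KV.mk (Subtype.ext (Units.ext (heckeBetaBar_arithmeticRingAut M q σ _)))

theorem aPush_smul (σ : Kbar ≃ₐ[ℚ] Kbar) (x : KV Kbar (FN (M * q)) m) :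
    aPush M q m (σ • x) = σ • aPush M q m x := by
  obtain ⟨u, rfl⟩ := KV.mk_surjective x
  rw [aPush_mk, KV.galois_smul_mk, KV.galois_smul_mk, aPush_mk]
  exact congrArg KV.mk (Subtype.ext (Units.ext (normAlong_alpha_arithmeticRingAut M q σ _)))

theorem UqKV_smul (σ : Kbar ≃ₐ[ℚ] Kbar) (x : KV Kbar (FN (M * q)) m) :
    UqKV M q hq hM m (σ • x) = σ • UqKV M q hq hM m x := by
  rw [UqKV_eq, UqKV_eq, wKV_smul, aPush_smul, aPull_smul, smul_sub]

/-! ### transition maps -/

variable {m' : ℕ}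

theorem wKV_red (h : m ∣ m') (x : KV Kbar (FN (M * q)) m') :
    wKV M q hq hM m (KV.red h x) = KV.red h (wKV M q hq hM m' x) := by
  obtain ⟨u, rfl⟩ := KV.mk_surjective x
  rw [KV.red_mk, wKV_mk, wKV_mk, KV.red_mk]

theorem aPull_red (h : m ∣ m') (y : KV Kbar (FN M) m') :
    aPull M q m (KV.red h y) = KV.red h (aPull M q m' y) := by
  obtain ⟨u, rfl⟩ := KV.mk_surjective y
  rw [KV.red_mk, aPull_mk, aPull_mk, KV.red_mk]

theorem bPull_red (h : m ∣ m') (y : KV Kbar (FN M) m') :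
    bPull M q m (KV.red h y) = KV.red h (bPull M q m' y) := by
  obtain ⟨u, rfl⟩ := KV.mk_surjective y
  rw [KV.red_mk, bPull_mk, bPull_mk, KV.red_mk]

theorem aPush_red (h : m ∣ m') (x : KV Kbar (FN (M * q)) m') :
    aPush M q m (KV.red h x) = KV.red h (aPush M q m' x) := by
  obtain ⟨u, rfl⟩ := KV.mk_surjective x
  rw [KV.red_mk, aPush_mk, aPush_mk, KV.red_mk]

theorem UqKV_red (h : m ∣ m') (x : KV Kbar (FN (M * q)) m') :
    UqKV M q hq hM m (KV.red h x) = KV.red h (UqKV M q hq hM m' x) := by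
  rw [UqKV_eq, UqKV_eq, wKV_red, aPush_red, aPull_red, map_sub]

end Fermat.Agent.DR.Hecke
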