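import Fermat.Agent.GAL.Model
import Mathlib.RingTheory.Norm.Transitivity

set_option autoImplicit false
set_option linter.style.haveILetI false

/-!
# DR/Hecke : general lemmas on `normAlong`
-/

noncomputable section

namespace Fermat.Agent.DR.Hecke

open AlgebraicCurve Fermat.Agent.GAL

variable {K : Type*} [Field K]

/-- The norm commutes with compatible ring isomorphisms. -/
theorem normAlong_equiv_equiv {F₁ F₁' F₂ F₂' : Type*} [Field F₁] [Field F₁'] [Field F₂] [Field F₂']
    [Algebra K F₁] [Algebra K F₁'] [Algebra K F₂] [Algebra K F₂']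
    (φ₁ : F₁ →ₐ[K] F₁') (φ₂ : F₂ →ₐ[K] F₂') (e : F₁ ≃+* F₂) (e' : F₁' ≃+* F₂')
    (h : ∀ x, φ₂ (e x) = e' (φ₁ x)) (y : F₁') :
    normAlong φ₂ (e' y) = e (normAlong φ₁ y) := by
  letI := algebraAlong φ₁
  letI := algebraAlong φ₂
  have key := Algebra.norm_eq_of_equiv_equiv (A₁ := F₁) (B₁ := F₁') (A₂ := F₂) (B₂ := F₂') e e'
    (RingHom.ext h) y
  have h1 : normAlong φ₁ y = Algebra.norm F₁ y := rfl
  have h2 : normAlong φ₂ (e' y) = Algebra.norm F₂ (e' y) := rfl
  rw [h1, h2, key, RingEquiv.apply_symm_apply]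

/-- Transitivity of the norm. -/
theorem normAlong_comp {F F' F'' : Type*} [Field F] [Field F'] [Field F'']
    [Algebra K F] [Algebra K F'] [Algebra K F'']
    (φ : F →ₐ[K] F') (ψ : F' →ₐ[K] F'') (y : F'') :
    normAlong (ψ.comp φ) y = normAlong φ (normAlong ψ y) := by
  letI i1 := algebraAlong φ
  letI i2 := algebraAlong ψ
  letI i3 := algebraAlong (ψ.comp φ)
  haveI : IsScalarTower F F' F'' := IsScalarTower.of_algebraMap_eq fun _ => rfl
  exact (Algebra.norm_norm (R := F) (S := F') (A := F'') (a := y)).symm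

end Fermat.Agent.DR.Hecke
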