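import Fermat.Agent.DR.Hecke.Galois
import Fermat.Agent.DR.Hecke.QExp
import Fermat.Agent.DR.Hecke.NormLemmas

set_option autoImplicit false
set_option linter.style.haveILetI false
set_option linter.unusedSectionVars false

/-!
# DR/Hecke : `w_q` at level `M q ℓ` restricts to `w_q` at level `M q` along `α_ℓ` and `β_ℓ`
-/

noncomputable section

namespace Fermat.Agent.DR.Hecke

open AlgebraicCurve ModularCurve Fermat.Agent.S24 Fermat.Agent.GAL Fermat.Agent.GAL.Hecke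

variable (M q ℓ : ℕ) [NeZero M] [NeZero q] [NeZero ℓ]

/-- The identity `FN (M ℓ q) = FN (M q ℓ)`. -/
def swapLevel : FN (M * ℓ * q) ≃ₐ[Kbar] FN (M * q * ℓ) :=
  IntermediateField.equivOfEq (congrArg modularFunctionFieldBar (Nat.mul_right_comm M ℓ q))

theorem coe_equivOfEq {F E : Type*} [Field F] [Field E] [Algebra F E] {S T : IntermediateField F E}
    (h : S = T) (x : S) : ((IntermediateField.equivOfEq h x : T) : E) = (x : E) := by
  subst h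
  rfl

theorem coe_equivOfEq_symm {F E : Type*} [Field F] [Field E] [Algebra F E]
    {S T : IntermediateField F E} (h : S = T) (x : T) :
    (((IntermediateField.equivOfEq h).symm x : S) : E) = (x : E) := by
  subst h
  rfl

theorem coe_swapLevel (x : FN (M * ℓ * q)) :
    ((swapLevel M q ℓ x : FN (M * q * ℓ)) : LaurentSeries Kbar) = (x : LaurentSeries Kbar) :=
  coe_equivOfEq _ x

theorem coe_swapLevel_symm (x : FN (M * q * ℓ)) :
    (((swapLevel M q ℓ).symm x : FN (M * ℓ * q)) : LaurentSeries Kbar) =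
      (x : LaurentSeries Kbar) :=
  coe_equivOfEq_symm _ x

theorem jd_congr {N a b : ℕ} [NeZero a] [NeZero b] (h : a = b) (ha : a ∣ N) (hb : b ∣ N) :
    FNAdjoin.jd N a ha = FNAdjoin.jd N b hb := by
  subst h
  rfl

theorem swapLevel_jd (d : ℕ) [NeZero d] (hd : d ∣ M * ℓ * q) (hd' : d ∣ M * q * ℓ) :
    swapLevel M q ℓ (FNAdjoin.jd (M * ℓ * q) d hd) = FNAdjoin.jd (M * q * ℓ) d hd' :=
  Subtype.ext (by rw [coe_swapLevel, FNAdjoin.coe_jd, FNAdjoin.coe_jd])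

theorem swapLevel_symm_jd (d : ℕ) [NeZero d] (hd : d ∣ M * ℓ * q) (hd' : d ∣ M * q * ℓ) :
    (swapLevel M q ℓ).symm (FNAdjoin.jd (M * q * ℓ) d hd') = FNAdjoin.jd (M * ℓ * q) d hd :=
  Subtype.ext (by rw [coe_swapLevel_symm, FNAdjoin.coe_jd, FNAdjoin.coe_jd])

variable (hq : q.Prime) (hM : ¬ q ∣ M) (hMℓ : ¬ q ∣ M * ℓ)

/-- `w_q` at level `M q ℓ`. -/
def wUp : FN (M * q * ℓ) →ₐ[Kbar] FN (M * q * ℓ) :=
  ((swapLevel M q ℓ : FN (M * ℓ * q) →ₐ[Kbar] FN (M * q * ℓ)).comp (wHom (M * ℓ) q hq hMℓ)).comp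
    ((swapLevel M q ℓ).symm : FN (M * q * ℓ) →ₐ[Kbar] FN (M * ℓ * q))

theorem wUp_apply (x : FN (M * q * ℓ)) :
    wUp M q ℓ hq hMℓ x = swapLevel M q ℓ (wHom (M * ℓ) q hq hMℓ ((swapLevel M q ℓ).symm x)) := rfl

theorem wUp_wUp (x : FN (M * q * ℓ)) : wUp M q ℓ hq hMℓ (wUp M q ℓ hq hMℓ x) = x := by
  rw [wUp_apply, wUp_apply, AlgEquiv.symm_apply_apply, wHom_wHom, AlgEquiv.apply_symm_apply]

theorem dvd_up {d : ℕ} (hd : d ∣ M * ℓ) : d ∣ M * q * ℓ :=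
  hd.trans ⟨q, by ring⟩

theorem mul_dvd_up {d : ℕ} (hd : d ∣ M * ℓ) : d * q ∣ M * q * ℓ := by
  rw [Nat.mul_right_comm]
  exact Nat.mul_dvd_mul_right hd q

theorem wUp_jd (d : ℕ) [NeZero d] (hd : d ∣ M * ℓ) :
    wUp M q ℓ hq hMℓ (FNAdjoin.jd (M * q * ℓ) d (dvd_up M q ℓ hd)) =
      FNAdjoin.jd (M * q * ℓ) (d * q) (mul_dvd_up M q ℓ hd) := by
  rw [wUp_apply, swapLevel_symm_jd M q ℓ d (hd.trans (dvd_mul_right _ q)), wHom_jd hq hMℓ d hd,
    swapLevel_jd]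

theorem wUp_jd_mul (d : ℕ) [NeZero d] (hd : d ∣ M * ℓ) :
    wUp M q ℓ hq hMℓ (FNAdjoin.jd (M * q * ℓ) (d * q) (mul_dvd_up M q ℓ hd)) =
      FNAdjoin.jd (M * q * ℓ) d (dvd_up M q ℓ hd) := by
  rw [wUp_apply, swapLevel_symm_jd M q ℓ (d * q) (Nat.mul_dvd_mul_right hd q),
    wHom_jd_mul hq hMℓ d hd, swapLevel_jd]

/-- `w_q ∘ α_ℓ = α_ℓ ∘ w_q`. -/
theorem wUp_alpha (f : FN (M * q)) :
    wUp M q ℓ hq hMℓ (heckeAlphaBar Kbar (M * q) ℓ f) =
      heckeAlphaBar Kbar (M * q) ℓ (wHom M q hq hM f) := by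
  have key : ((wUp M q ℓ hq hMℓ : FN (M * q * ℓ) →+* FN (M * q * ℓ))).comp
      (heckeAlphaBar Kbar (M * q) ℓ : FN (M * q) →+* FN (M * q * ℓ)) =
      (heckeAlphaBar Kbar (M * q) ℓ : FN (M * q) →+* FN (M * q * ℓ)).comp
        (wHom M q hq hM : FN (M * q) →+* FN (M * q)) := by
    refine FNAdjoin.ringHom_ext (fun c => ?_) (fun d _ hd => ?_)
    · show wUp M q ℓ hq hMℓ (heckeAlphaBar Kbar (M * q) ℓ (algebraMap Kbar (FN (M * q)) c)) =
        heckeAlphaBar Kbar (M * q) ℓ (wHom M q hq hM (algebraMap Kbar (FN (M * q)) c))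
      rw [AlgHom.commutes, AlgHom.commutes, AlgHom.commutes, AlgHom.commutes]
    · show wUp M q ℓ hq hMℓ (heckeAlphaBar Kbar (M * q) ℓ (FNAdjoin.jd (M * q) d hd)) =
        heckeAlphaBar Kbar (M * q) ℓ (wHom M q hq hM (FNAdjoin.jd (M * q) d hd))
      rw [AtkinLehner.alpha_jd]
      rcases AtkinLehner.dvd_cases hq hd with h | ⟨d', h, rfl⟩
      · rw [wHom_jd hq hM d h, AtkinLehner.alpha_jd]
        exact wUp_jd M q ℓ hq hMℓ d (h.trans (dvd_mul_right M ℓ))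
      · have : NeZero d' := ⟨fun h0 => by
          subst h0
          exact NeZero.ne (0 * q) (zero_mul q)⟩
        rw [wHom_jd_mul hq hM d' h, AtkinLehner.alpha_jd]
        exact wUp_jd_mul M q ℓ hq hMℓ d' (h.trans (dvd_mul_right M ℓ))
  exact congrArg (fun g : FN (M * q) →+* FN (M * q * ℓ) => g f) key

/-- `w_q ∘ β_ℓ = β_ℓ ∘ w_q`. -/
theorem wUp_beta (f : FN (M * q)) :
    wUp M q ℓ hq hMℓ (heckeBetaBar Kbar (M * q) ℓ f) =
      heckeBetaBar Kbar (M * q) ℓ (wHom M q hq hM f) := by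
  have key : ((wUp M q ℓ hq hMℓ : FN (M * q * ℓ) →+* FN (M * q * ℓ))).comp
      (heckeBetaBar Kbar (M * q) ℓ : FN (M * q) →+* FN (M * q * ℓ)) =
      (heckeBetaBar Kbar (M * q) ℓ : FN (M * q) →+* FN (M * q * ℓ)).comp
        (wHom M q hq hM : FN (M * q) →+* FN (M * q)) := by
    refine FNAdjoin.ringHom_ext (fun c => ?_) (fun d _ hd => ?_)
    · show wUp M q ℓ hq hMℓ (heckeBetaBar Kbar (M * q) ℓ (algebraMap Kbar (FN (M * q)) c)) =
        heckeBetaBar Kbar (M * q) ℓ (wHom M q hq hM (algebraMap Kbar (FN (M * q)) c))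
      rw [AlgHom.commutes, AlgHom.commutes, AlgHom.commutes, AlgHom.commutes]
    · show wUp M q ℓ hq hMℓ (heckeBetaBar Kbar (M * q) ℓ (FNAdjoin.jd (M * q) d hd)) =
        heckeBetaBar Kbar (M * q) ℓ (wHom M q hq hM (FNAdjoin.jd (M * q) d hd))
      rw [AtkinLehner.beta_jd]
      rcases AtkinLehner.dvd_cases hq hd with h | ⟨d', h, rfl⟩
      · rw [wHom_jd hq hM d h, AtkinLehner.beta_jd]
        have h1 := wUp_jd M q ℓ hq hMℓ (d * ℓ) (Nat.mul_dvd_mul_right h ℓ)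
        rw [h1]
        exact jd_congr (Nat.mul_right_comm d ℓ q) _ _
      · have : NeZero d' := ⟨fun h0 => by
          subst h0
          exact NeZero.ne (0 * q) (zero_mul q)⟩
        rw [wHom_jd_mul hq hM d' h, AtkinLehner.beta_jd]
        have h1 := wUp_jd_mul M q ℓ hq hMℓ (d' * ℓ) (Nat.mul_dvd_mul_right h ℓ)
        rw [← h1]
        congr 1
        exact jd_congr (Nat.mul_right_comm d' q ℓ) _ _
  exact congrArg (fun g : FN (M * q) →+* FN (M * q * ℓ) => g f) key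

/-- `w_q` at level `M q` as a ring equivalence. -/
def wEquiv : FN (M * q) ≃+* FN (M * q) :=
  RingEquiv.ofRingHom (wHom M q hq hM : FN (M * q) →+* FN (M * q))
    (wHom M q hq hM : FN (M * q) →+* FN (M * q))
    (RingHom.ext fun x => wHom_wHom M q hq hM x) (RingHom.ext fun x => wHom_wHom M q hq hM x)

theorem wEquiv_apply (x : FN (M * q)) : wEquiv M q hq hM x = wHom M q hq hM x := rfl

/-- `w_q` at level `M q ℓ` as a ring equivalence. -/
def wUpEquiv : FN (M * q * ℓ) ≃+* FN (M * q * ℓ) :=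
  RingEquiv.ofRingHom (wUp M q ℓ hq hMℓ : FN (M * q * ℓ) →+* FN (M * q * ℓ))
    (wUp M q ℓ hq hMℓ : FN (M * q * ℓ) →+* FN (M * q * ℓ))
    (RingHom.ext fun x => wUp_wUp M q ℓ hq hMℓ x) (RingHom.ext fun x => wUp_wUp M q ℓ hq hMℓ x)

theorem wUpEquiv_apply (x : FN (M * q * ℓ)) : wUpEquiv M q ℓ hq hMℓ x = wUp M q ℓ hq hMℓ x := rfl

include hMℓ in
/-- **`T_ℓ` commutes with `w_q`** (on functions). -/
theorem heckeNorm_wHom (f : FN (M * q)) :
    heckeNorm Kbar (M * q) ℓ (wHom M q hq hM f) = wHom M q hq hM (heckeNorm Kbar (M * q) ℓ f) := by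
  have key := normAlong_equiv_equiv (heckeAlphaBar Kbar (M * q) ℓ) (heckeAlphaBar Kbar (M * q) ℓ)
    (wEquiv M q hq hM) (wUpEquiv M q ℓ hq hMℓ)
    (fun x => (wUp_alpha M q ℓ hq hM hMℓ x).symm) (heckeBetaBar Kbar (M * q) ℓ f)
  rw [wUpEquiv_apply, wUp_beta M q ℓ hq hM hMℓ, wEquiv_apply] at key
  exact key

end Fermat.Agent.DR.Hecke
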