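import Fermat.Agent.DR.Hecke.QExp
import Fermat.Agent.DR.Conc.RedData
import Fermat.Agent.DR.Conc.Frob
import Fermat.Agent.GAL.Hecke.SeriesRed

set_option autoImplicit false
set_option linter.style.haveILetI false
set_option linter.unusedSectionVars false

/-!
# DR/Hecke : the reduction of `U_q` at `∞` is the coefficientwise Frobenius

`red₁ (U_q g) = Fr (red₁ g)`.
-/

noncomputable section

namespace Fermat.Agent.DR.Hecke

open AlgebraicCurve ModularCurve Fermat.Agent.S24 Fermat.Agent.GAL Fermat.Agent.GAL.Hecke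
  Fermat.Agent.GAL.Gauss

variable (A : ValuationSubring Kbar)

theorem gRes_congr {x y : LaurentSeries Kbar} (hx : x ∈ gRing A) (hy : y ∈ gRing A) (h : x = y) :
    gRes A ⟨x, hx⟩ = gRes A ⟨y, hy⟩ := by
  subst h
  rfl

theorem prod_mem_gRing {ι : Type*} (s : Finset ι) (f : ι → LaurentSeries Kbar)
    (hf : ∀ i, f i ∈ gRing A) : ∏ i ∈ s, f i ∈ gRing A :=
  Subring.prod_mem _ fun i _ => hf i

theorem gRes_prod {ι : Type*} (s : Finset ι) (f : ι → LaurentSeries Kbar)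
    (hf : ∀ i, f i ∈ gRing A) :
    gRes A ⟨∏ i ∈ s, f i, prod_mem_gRing A s f hf⟩ = ∏ i ∈ s, gRes A ⟨f i, hf i⟩ := by
  rw [← map_prod]
  congr 1
  apply Subtype.ext
  rw [SubmonoidClass.coe_finsetProd]

/-- a root of unity lies in `A`. -/
theorem mem_of_pow_eq_one {c : Kbar} {n : ℕ} (hn : 0 < n) (hc : c ^ n = 1) : c ∈ A := by
  rcases A.mem_or_inv_mem c with h | h
  · exact h
  · have : c = c⁻¹ ^ (n - 1) := by
      have hc0 : c ≠ 0 := by
        rintro rfl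
        rw [zero_pow hn.ne'] at hc
        exact zero_ne_one hc
      rw [inv_pow]
      apply eq_inv_of_mul_eq_one_left
      rw [← pow_succ', Nat.sub_add_cancel hn, hc]
    rw [this]
    exact pow_mem h _

variable {q : ℕ} [NeZero q] (hq : q.Prime) (hA : A.LiesOverPrime q)

include hq hA in
/-- **Formal computation.**  If `U(t^q) = ∏_{i<q} G(ζ^i t)` and `G` is Gauss integral, then so is
`U`, and `Ū = Fr Ḡ`. -/
theorem gRes_of_qExpand_eq_prod [Fact q.Prime] [CharP (IsLocalRing.ResidueField ↥A) q]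
    {ζ : Kbar} (hζ : IsPrimitiveRoot ζ q)
    {G U : LaurentSeries Kbar} (hG : G ∈ gRing A)
    (h : qExpand Kbar q U = ∏ i : Fin q, Fermat.Agent.S24.twist (ζ ^ (i : ℕ))
      (pow_ne_zero _ (hζ.ne_zero hq.ne_zero)) G) :
    ∃ hU : U ∈ gRing A, gRes A ⟨U, hU⟩ =
      coeffMap (frobenius (IsLocalRing.ResidueField ↥A) q) (gRes A ⟨G, hG⟩) := by
  have hζ0 := hζ.ne_zero hq.ne_zero
  have hpow : ∀ i : ℕ, (ζ ^ i) ^ q = 1 := fun i => by
    rw [← pow_mul, mul_comm, pow_mul, hζ.pow_eq_one, one_pow]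
  have hmem : ∀ i : ℕ, ζ ^ i ∈ A := fun i => mem_of_pow_eq_one A hq.pos (hpow i)
  have hmem' : ∀ i : ℕ, (ζ ^ i)⁻¹ ∈ A := fun i =>
    mem_of_pow_eq_one A hq.pos (by rw [inv_pow, hpow i, inv_one])
  have hres : ∀ i : ℕ, IsLocalRing.residue ↥A ⟨ζ ^ i, hmem i⟩ = 1 := by
    intro i
    have := residue_eq_one_of_pow_eq_one A hq hA
      (Conc.Series_unit A (pow_ne_zero i hζ0) (hmem i) (hmem' i)) (by
        apply Units.ext
        apply Subtype.ext
        rw [Units.val_pow_eq_pow_val, SubmonoidClass.coe_pow]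
        exact hpow i)
    exact this
  have htw : ∀ i : Fin q, Fermat.Agent.S24.twist (ζ ^ (i : ℕ)) (pow_ne_zero _ hζ0) G ∈ gRing A :=
    fun i => Conc.twist_mem_gRing A (pow_ne_zero _ hζ0) (hmem i) (hmem' i) hG
  have hprod := prod_mem_gRing A Finset.univ _ htw
  have hqU : qExpand Kbar q U ∈ gRing A := by rw [h]; exact hprod
  have hU : U ∈ gRing A := Conc.mem_gRing_of_qExpand A q hqU
  refine ⟨hU, ?_⟩
  apply qExpand_injective (R := IsLocalRing.ResidueField ↥A) (N := q)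
  rw [← Conc.gRes_qExpand A q hU, gRes_congr A _ hprod h, gRes_prod A Finset.univ _ htw,
    ← pow_char_eq_qExpand]
  have hcongr : ∀ i ∈ (Finset.univ : Finset (Fin q)),
      gRes A ⟨Fermat.Agent.S24.twist (ζ ^ (i : ℕ)) (pow_ne_zero _ hζ0) G, htw i⟩ =
        gRes A ⟨G, hG⟩ := fun i _ =>
    Conc.gRes_twist A (pow_ne_zero _ hζ0) (hmem i) (hmem' i) (hres i) hG
  rw [Finset.prod_congr rfl hcongr, Finset.prod_const, Finset.card_univ, Fintype.card_fin]

variable (M : ℕ) [NeZero M] (hqM : ¬ q ∣ M)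

/-- **`red₁ (U_q g) = Fr (red₁ g)`.** -/
theorem R1_red_UqF [Fact q.Prime] [CharP (IsLocalRing.ResidueField ↥A) q]
    [PerfectRing (IsLocalRing.ResidueField ↥A) q] (g : (FN (M * q))ˣ)
    (hg : (g : FN (M * q)) ∈ (Conc.R1 A M q hq hqM hA).O) :
    ((UqF M q hq hqM g : (FN (M * q))ˣ) : FN (M * q)) ∈ (Conc.R1 A M q hq hqM hA).O ∧
    (Conc.R1 A M q hq hqM hA).red ((UqF M q hq hqM g : (FN (M * q))ˣ) : FN (M * q)) =
      Conc.FrE (IsLocalRing.ResidueField ↥A) M q ((Conc.R1 A M q hq hqM hA).red (g : FN (M * q))) := by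
  obtain ⟨ζ, hζ⟩ := HasEnoughRootsOfUnity.exists_primitiveRoot Kbar q
  have hG : (((g : (FN (M * q))ˣ) : FN (M * q)) : LaurentSeries Kbar) ∈ gRing A := hg
  obtain ⟨hU, hres⟩ := gRes_of_qExpand_eq_prod A hq hA hζ hG (qExpand_UqF hq hqM hζ g)
  refine ⟨hU, ?_⟩
  apply Subtype.ext
  rw [Conc.coe_FrE, Conc.coe_R1_red A M q hq hqM hA _ hU, Conc.coe_R1_red A M q hq hqM hA _ hG, hres]

end Fermat.Agent.DR.Hecke
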